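import Mathlib
import Fermat.Agent.S49.AlgCore

set_option autoImplicit false

/-!
# Ribet's level-raising algebra, abstract core (S41, step R4 + lifting half of R5)

Everything here is pure commutative algebra over Mathlib (plus the lifting lemma of S49).

* `exists_socle` : a finite module `M` with `𝔫 M ≠ M` has a nonzero vector killed by `𝔫`.
* `exists_pow_smul_eq_ker_add` : from "dual Ihara" (the cokernel of `β` modulo `p` is killed by
  `e`) to exact kernel elements, by Noetherian stabilisation.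
* `exists_new_vector` : the integral statement (kernel form of Ribet's argument).
* `exists_eigenvector_of_lattice` : S49's lifting lemma for a non-spanning lattice.
* `exists_new_eigenvector` : the user-facing theorem (complex spaces with lattices).
-/

namespace Fermat.Agent.S41.Core

open Polynomial

section socle

/-- A finite module `M` over a commutative ring with `𝔫 • M ≠ M` contains a nonzero vector
killed by `𝔫`. -/
theorem exists_socle {R M : Type*} [CommRing R] [AddCommGroup M] [Module R M] [Finite M]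
    (𝔫 : Ideal R) (h : (𝔫 • ⊤ : Submodule R M) ≠ ⊤) :
    ∃ m : M, m ≠ 0 ∧ ∀ r ∈ 𝔫, r • m = 0 := by
  classical
  let P : Set (Submodule R M) := {N | 𝔫 • N ≠ N}
  have hP : P.Nonempty := ⟨⊤, h⟩
  obtain ⟨N, hN, hmin⟩ := WellFounded.has_min (wellFounded_lt (α := Submodule R M)) P hP
  have hle : 𝔫 • N ≤ N := Submodule.smul_le_right
  have hlt : 𝔫 • N < N := lt_of_le_of_ne hle hN
  have hstab : 𝔫 • (𝔫 • N) = 𝔫 • N := by
    by_contra hne
    exact hmin (𝔫 • N) hne hlt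
  have hfg : (𝔫 • N).FG := IsNoetherian.noetherian _
  obtain ⟨r, hr1, hr0⟩ :=
    Submodule.exists_sub_one_mem_and_smul_eq_zero_of_fg_of_le_smul 𝔫 (𝔫 • N) hfg hstab.ge
  obtain ⟨m₀, hm₀N, hm₀⟩ := SetLike.exists_of_lt hlt
  refine ⟨r • m₀, ?_, ?_⟩
  · intro h0
    apply hm₀
    have h1 : m₀ = -((r - 1) • m₀) := by
      rw [sub_smul, h0, one_smul, zero_sub, neg_neg]
    rw [h1]
    exact Submodule.neg_mem _ (Submodule.smul_mem_smul hr1 hm₀N)
  · intro a ha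
    rw [smul_comm]
    exact hr0 _ (Submodule.smul_mem_smul ha hm₀N)

end socle

section stabilisation

variable {T₀ : Type*} [CommRing T₀] {A B : Type*} [AddCommGroup A] [Module T₀ A]
  [AddCommGroup B] [Module T₀ B]

/-- **Dual Ihara, exact form.** If `B` is a finitely generated abelian group and the cokernel of
`β : A → B` modulo `p` is killed by `e`, then there is `K` such that for every `z` with
`β z ∈ p B` the vector `e ^ K • z` is congruent modulo `p` to an element of `ker β`. -/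
theorem exists_pow_smul_eq_ker_add [Module.Finite ℤ B] (β : A →ₗ[T₀] B) (p : ℕ) (e : T₀)
    (dual : ∀ y : B, ∃ (z : A) (y' : B), e • y = β z + (p : ℤ) • y') :
    ∃ K : ℕ, ∀ (z : A) (y : B), β z = (p : ℤ) • y →
      ∃ z' z'' : A, β z' = 0 ∧ e ^ K • z = z' + (p : ℤ) • z'' := by
  classical
  -- the chain `B_n = {y | p ^ n y ∈ range β}`
  let Bn : ℕ → Submodule ℤ B := fun n =>
    { carrier := {y | ∃ z : A, ((p : ℤ) ^ n) • y = β z}
      zero_mem' := ⟨0, by simp⟩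
      add_mem' := by
        rintro y₁ y₂ ⟨z₁, h₁⟩ ⟨z₂, h₂⟩
        exact ⟨z₁ + z₂, by rw [smul_add, h₁, h₂, map_add]⟩
      smul_mem' := by
        rintro k y ⟨z, hz⟩
        exact ⟨k • z, by rw [smul_comm, hz, map_zsmul]⟩ }
  have hBn : ∀ n y, y ∈ Bn n ↔ ∃ z : A, ((p : ℤ) ^ n) • y = β z := fun n y => Iff.rfl
  have hmono : Monotone Bn := by
    refine monotone_nat_of_le_succ fun n y hy => ?_
    obtain ⟨z, hz⟩ := hy
    exact ⟨(p : ℤ) • z, by rw [pow_succ, mul_comm, mul_smul, hz, map_zsmul]⟩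
  obtain ⟨K, hK⟩ := (monotone_stabilizes_iff_noetherian (R := ℤ) (M := B)).mpr inferInstance
    ⟨Bn, hmono⟩
  have hall : ∀ m, Bn m ≤ Bn K := by
    intro m
    rcases le_total m K with h | h
    · exact hmono h
    · exact (hK m h).ge
  -- `e` maps `B_K` into `range β + p B_K`
  have hstep : ∀ y ∈ Bn K, ∃ (z : A) (y' : B), y' ∈ Bn K ∧ e • y = β z + (p : ℤ) • y' := by
    intro y hy
    obtain ⟨z₁, y₁, h1⟩ := dual y
    obtain ⟨z₀, hz₀⟩ := hy
    refine ⟨z₁, y₁, hall (K + 1) ⟨e • z₀ - (p : ℤ) ^ K • z₁, ?_⟩, h1⟩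
    have h2 : (p : ℤ) • y₁ = e • y - β z₁ := by rw [h1]; abel
    rw [pow_succ, mul_smul, h2, smul_sub, smul_comm ((p : ℤ) ^ K) e y, hz₀, map_sub, map_smul,
      map_zsmul]
  have hpow : ∀ n : ℕ, ∀ y ∈ Bn K, ∃ (z : A) (y' : B), y' ∈ Bn K ∧
      e ^ n • y = β z + ((p : ℤ) ^ n) • y' := by
    intro n
    induction n with
    | zero => intro y hy; exact ⟨0, y, hy, by simp⟩
    | succ n ih =>
      intro y hy
      obtain ⟨z₁, y₁, hy₁, h1⟩ := hstep y hy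
      obtain ⟨z₂, y₂, hy₂, h2⟩ := ih y₁ hy₁
      refine ⟨e ^ n • z₁ + (p : ℤ) • z₂, y₂, hy₂, ?_⟩
      rw [pow_succ, mul_smul, h1, smul_add, smul_comm (e ^ n) (p : ℤ) y₁, h2, map_add, map_smul,
        map_zsmul, smul_add, pow_succ, mul_comm ((p : ℤ) ^ n) (p : ℤ), mul_smul]
      abel
  refine ⟨K, fun z y hzy => ?_⟩
  have hy : y ∈ Bn K := hall 1 ⟨z, by rw [pow_one, hzy]⟩
  obtain ⟨z₁, y₁, hy₁, h1⟩ := hpow K y hy
  obtain ⟨z₂, hz₂⟩ := hy₁
  refine ⟨e ^ K • z - (p : ℤ) • (z₁ + z₂), z₁ + z₂, ?_, by abel⟩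
  rw [map_sub, map_smul, hzy, smul_comm (e ^ K) (p : ℤ) y, h1, hz₂, map_zsmul, map_add]
  abel

end stabilisation

section integral

variable {T₀ : Type*} [CommRing T₀] {Λ₁ Λ₂ : Type*} [AddCommGroup Λ₁] [Module T₀ Λ₁]
  [AddCommGroup Λ₂] [Module T₀ Λ₂]

/-- **Ribet's argument, integral kernel form.** `Λ₁`, `Λ₂` are the cohomology lattices of levels
`N` and `Nq'` as modules over the Hecke ring `T₀` away from `q'`; `α₁ α₂` the two degeneracy
maps, `β₁ β₂` their adjoints, `S = T_{q'}`.  Given a vector `x` of `Λ₁` which is nonzero modulo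
`p`, killed modulo `p` by the maximal ideal `𝔫` and with `S x ≡ ε c x`, Ihara's lemma and its
dual (both up to the operators `e₁ e₂ ∉ 𝔫`) produce a vector of `ker β₁ ∩ ker β₂` which is
nonzero modulo `p` and killed modulo `p` by `𝔫`. -/
theorem exists_new_vector [Module.Finite ℤ Λ₁]
    (α₁ α₂ : Λ₁ →ₗ[T₀] Λ₂) (β₁ β₂ : Λ₂ →ₗ[T₀] Λ₁) (S : Λ₁ →ₗ[T₀] Λ₁) (c : ℤ)
    (h11 : ∀ x, β₁ (α₁ x) = c • x) (h22 : ∀ x, β₂ (α₂ x) = c • x)
    (h12 : ∀ x, β₁ (α₂ x) = S x) (h21 : ∀ x, β₂ (α₁ x) = S x)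
    (p : ℕ) (𝔫 : Ideal T₀) [h𝔫 : 𝔫.IsMaximal] (e₁ e₂ : T₀) (he₁ : e₁ ∉ 𝔫) (he₂ : e₂ ∉ 𝔫)
    (ihara : ∀ x y : Λ₁, (∃ z : Λ₂, α₁ x + α₂ y = (p : ℤ) • z) →
      (∃ x' : Λ₁, e₁ • x = (p : ℤ) • x') ∧ ∃ y' : Λ₁, e₁ • y = (p : ℤ) • y')
    (dual : ∀ x y : Λ₁, ∃ (z : Λ₂) (x' y' : Λ₁),
      e₂ • x = β₁ z + (p : ℤ) • x' ∧ e₂ • y = β₂ z + (p : ℤ) • y')
    (ε : ℤ) (hε : ε = 1 ∨ ε = -1)
    (x : Λ₁) (hx : ¬ ∃ x' : Λ₁, x = (p : ℤ) • x')
    (h𝔫x : ∀ n ∈ 𝔫, ∃ x' : Λ₁, n • x = (p : ℤ) • x')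
    (hSx : ∃ x' : Λ₁, S x - (ε * c) • x = (p : ℤ) • x') :
    ∃ z : Λ₂, β₁ z = 0 ∧ β₂ z = 0 ∧ (¬ ∃ z' : Λ₂, z = (p : ℤ) • z') ∧
      ∀ n ∈ 𝔫, ∃ z' : Λ₂, n • z = (p : ℤ) • z' := by
  classical
  -- the annihilator of `x` modulo `p` is exactly `𝔫`
  let 𝔞 : Ideal T₀ :=
    { carrier := {t | ∃ x' : Λ₁, t • x = (p : ℤ) • x'}
      zero_mem' := ⟨0, by simp⟩
      add_mem' := by
        rintro a b ⟨xa, ha⟩ ⟨xb, hb⟩
        exact ⟨xa + xb, by rw [add_smul, ha, hb, smul_add]⟩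
      smul_mem' := by
        rintro r a ⟨xa, ha⟩
        exact ⟨r • xa, by rw [smul_eq_mul, mul_smul, ha, smul_comm]⟩ }
  have h𝔞 : 𝔫 = 𝔞 := by
    apply h𝔫.eq_of_le
    · rw [Ne, Ideal.eq_top_iff_one]
      rintro ⟨x', hx'⟩
      exact hx ⟨x', by rwa [one_smul] at hx'⟩
    · exact fun n hn => h𝔫x n hn
  obtain ⟨xS, hxS⟩ := hSx
  have hS' : S x = (p : ℤ) • xS + (ε * c) • x := by rw [← hxS]; abel
  have hβ₁ : β₁ (α₁ x - ε • α₂ x) = (p : ℤ) • (-(ε • xS)) := by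
    rw [map_sub, map_zsmul, h11, h12, hS']
    rcases hε with rfl | rfl <;> module
  have hβ₂ : β₂ (α₁ x - ε • α₂ x) = (p : ℤ) • xS := by
    rw [map_sub, map_zsmul, h21, h22, hS']
    module
  -- stabilisation
  obtain ⟨K, hK⟩ := exists_pow_smul_eq_ker_add (β₁.prod β₂) p e₂ (by
    rintro ⟨a, b⟩
    obtain ⟨z, a', b', ha, hb⟩ := dual a b
    exact ⟨z, (a', b'), Prod.ext (by simpa using ha) (by simpa using hb)⟩)
  obtain ⟨z', z'', hz'0, hz'⟩ := hK (α₁ x - ε • α₂ x) (-(ε • xS), xS)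
    (Prod.ext (by simpa using hβ₁) (by simpa using hβ₂))
  have hz'1 : β₁ z' = 0 := by simpa using congrArg Prod.fst hz'0
  have hz'2 : β₂ z' = 0 := by simpa using congrArg Prod.snd hz'0
  have hz₀ : ∀ (t : T₀) (y : Λ₁), t • (α₁ y - ε • α₂ y) = α₁ (t • y) + α₂ (-(ε • (t • y))) := by
    intro t y
    rw [smul_sub, map_neg, map_zsmul, map_smul, map_smul, smul_comm t ε]
    abel
  refine ⟨z', hz'1, hz'2, ?_, ?_⟩
  · rintro ⟨w, hw⟩
    have h1 : α₁ (e₂ ^ K • x) + α₂ (-(ε • (e₂ ^ K • x))) = (p : ℤ) • (w + z'') := by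
      rw [← hz₀, hz', hw, smul_add]
    obtain ⟨⟨x', hx'⟩, -⟩ := ihara _ _ ⟨_, h1⟩
    have hmem : e₁ * e₂ ^ K ∈ 𝔞 := ⟨x', by rw [mul_smul, hx']⟩
    rw [← h𝔞] at hmem
    rcases h𝔫.isPrime.mem_or_mem hmem with h | h
    · exact he₁ h
    · exact he₂ (h𝔫.isPrime.mem_of_pow_mem K h)
  · intro n hn
    obtain ⟨x', hx'⟩ := h𝔫x n hn
    refine ⟨e₂ ^ K • (α₁ x' - ε • α₂ x') - n • z'', ?_⟩
    have h3 : z' = e₂ ^ K • (α₁ x - ε • α₂ x) - (p : ℤ) • z'' := by rw [hz']; abel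
    have h4 : n • (α₁ x - ε • α₂ x) = (p : ℤ) • (α₁ x' - ε • α₂ x') := by
      rw [smul_sub, smul_comm n ε, ← map_smul, ← map_smul, hx', map_zsmul, map_zsmul,
        smul_comm ε (p : ℤ), smul_sub]
    rw [h3, smul_sub, smul_comm n (e₂ ^ K), h4, smul_comm n (p : ℤ) z'',
      smul_comm (e₂ ^ K) (p : ℤ), ← smul_sub]

end integral

section lattice

variable {T : Type*} [CommRing T] {V : Type*} [AddCommGroup V] [Module ℂ V]

/-- S49's lifting lemma for a lattice which need not span: a commutative ring `T` acting on a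
complex vector space `V` and preserving a finitely generated `ℤ`-submodule `L`; for every
maximal ideal `m` of `T` containing the annihilator of `L` there is a simultaneous eigenvector
in the complex span of `L`, with eigencharacter valued in the algebraic integers and a maximal
ideal `m'` of the algebraic integers pulling back to `m`. -/
theorem exists_eigenvector_of_lattice
    (φ : T →+* Module.End ℂ V) (L : Submodule ℤ V) (hLfg : L.FG)
    (hLT : ∀ t : T, ∀ x ∈ L, φ t x ∈ L)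
    (m : Ideal T) [hm : m.IsMaximal] (hker : ∀ t : T, (∀ x ∈ L, φ t x = 0) → t ∈ m) :
    ∃ (v : V) (θ : T →+* integralClosure ℤ ℂ) (m' : Ideal (integralClosure ℤ ℂ)),
      v ≠ 0 ∧ v ∈ Submodule.span ℂ (L : Set V) ∧
      (∀ t : T, φ t v = ((θ t : integralClosure ℤ ℂ) : ℂ) • v) ∧
      m'.IsMaximal ∧ m'.comap θ = m := by
  classical
  let W : Submodule ℂ V := Submodule.span ℂ (L : Set V)
  have hWst : ∀ t : T, ∀ w ∈ W, φ t w ∈ W := by
    intro t w hw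
    induction hw using Submodule.span_induction with
    | mem x hx => exact Submodule.subset_span (hLT t x hx)
    | zero => rw [map_zero]; exact W.zero_mem
    | add x y _ _ hx hy => rw [map_add]; exact W.add_mem hx hy
    | smul a x _ hx => rw [map_smul]; exact W.smul_mem a hx
  obtain ⟨s, hs⟩ := hLfg
  have hWs : W = Submodule.span ℂ (s : Set V) := by
    show Submodule.span ℂ (L : Set V) = _
    rw [← hs, Submodule.span_span_of_tower]
  have hfd : FiniteDimensional ℂ W := by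
    rw [hWs]
    exact FiniteDimensional.span_finset ℂ s
  let φ' : T →+* Module.End ℂ W :=
    { toFun := fun t => (φ t).restrict (hWst t)
      map_one' := by
        apply LinearMap.ext; intro w; apply Subtype.ext
        simp
      map_mul' := by
        intro a b
        apply LinearMap.ext; intro w; apply Subtype.ext
        simp [Module.End.mul_apply]
      map_zero' := by
        apply LinearMap.ext; intro w; apply Subtype.ext
        simp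
      map_add' := by
        intro a b
        apply LinearMap.ext; intro w; apply Subtype.ext
        simp }
  have hφ' : ∀ (t : T) (w : W), ((φ' t w : W) : V) = φ t (w : V) := fun t w => rfl
  let L' : Submodule ℤ W :=
    { carrier := {w | (w : V) ∈ L}
      zero_mem' := L.zero_mem
      add_mem' := fun {a b} ha hb => L.add_mem ha hb
      smul_mem' := fun c a ha => by
        show ((c • a : W) : V) ∈ L
        rw [Submodule.coe_smul_of_tower]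
        exact L.smul_mem c ha }
  have hL' : ∀ w : W, w ∈ L' ↔ (w : V) ∈ L := fun w => Iff.rfl
  have hL'fg : L'.FG := by
    let incl : L →ₗ[ℤ] W :=
      { toFun := fun x => ⟨x.1, Submodule.subset_span x.2⟩
        map_add' := fun x y => rfl
        map_smul' := fun n x => rfl }
    have hrange : L' = LinearMap.range incl := by
      ext w
      constructor
      · intro hw
        exact ⟨⟨w.1, hw⟩, rfl⟩
      · rintro ⟨x, rfl⟩
        exact x.2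
    rw [hrange, LinearMap.range_eq_map]
    have : Module.Finite ℤ L := Module.Finite.iff_fg.mpr ⟨s, hs⟩
    exact Submodule.FG.map _ Module.Finite.fg_top
  have hL'span : Submodule.span ℂ (L' : Set W) = ⊤ := by
    apply Submodule.map_injective_of_injective W.injective_subtype
    rw [Submodule.map_span, Submodule.map_subtype_top]
    have : (W.subtype '' (L' : Set W)) = (L : Set V) := by
      ext x
      constructor
      · rintro ⟨w, hw, rfl⟩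
        exact hw
      · intro hx
        exact ⟨⟨x, Submodule.subset_span hx⟩, hx, rfl⟩
    rw [this]
  have hL'T : ∀ t : T, ∀ x ∈ L', φ' t x ∈ L' := fun t x hx => hLT t x hx
  have hker' : RingHom.ker φ' ≤ m := by
    intro t ht
    apply hker
    intro x hx
    have h0 : φ' t ⟨x, Submodule.subset_span hx⟩ = 0 := by
      rw [RingHom.mem_ker.mp ht]; rfl
    have := congrArg Subtype.val h0
    simpa [hφ'] using this
  obtain ⟨v, θ, m', hv0, hv, hm', hcomap⟩ :=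
    Fermat.Agent.S49.AlgCore.exists_eigenvector_maximal φ' L' hL'fg hL'span hL'T m hker'
  refine ⟨(v : V), θ, m', ?_, v.2, ?_, hm', hcomap⟩
  · intro h
    exact hv0 (Subtype.ext h)
  · intro t
    have := congrArg Subtype.val (hv t)
    simpa [hφ'] using this

end lattice

section latticeHom

/-- The action of a ring on a stable `ℤ`-lattice of a complex vector space. -/
noncomputable def latticeHom {R : Type*} [Ring R] {V : Type*} [AddCommGroup V] [Module ℂ V]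
    (φ : R →+* Module.End ℂ V) (L : Submodule ℤ V) (h : ∀ r, ∀ x ∈ L, φ r x ∈ L) :
    R →+* Module.End ℤ L where
  toFun r := ((φ r).restrictScalars ℤ).restrict (h r)
  map_one' := by
    apply LinearMap.ext; intro w; apply Subtype.ext
    show φ 1 (w : V) = (w : V)
    rw [map_one]; rfl
  map_mul' a b := by
    apply LinearMap.ext; intro w; apply Subtype.ext
    show φ (a * b) (w : V) = φ a (φ b (w : V))
    rw [map_mul]; rfl
  map_zero' := by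
    apply LinearMap.ext; intro w; apply Subtype.ext
    show φ 0 (w : V) = ((0 : L) : V)
    rw [map_zero]; rfl
  map_add' a b := by
    apply LinearMap.ext; intro w; apply Subtype.ext
    show φ (a + b) (w : V) = φ a (w : V) + φ b (w : V)
    rw [map_add]; rfl

theorem latticeHom_apply {R : Type*} [Ring R] {V : Type*} [AddCommGroup V] [Module ℂ V]
    (φ : R →+* Module.End ℂ V) (L : Submodule ℤ V) (h : ∀ r, ∀ x ∈ L, φ r x ∈ L) (r : R)
    (x : L) : ((latticeHom φ L h r x : L) : V) = φ r (x : V) := rfl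

end latticeHom

section main

/-- The preimage of a maximal ideal of the ring of algebraic integers under any ring
homomorphism is maximal. -/
theorem isMaximal_comap_integralClosure {R : Type*} [CommRing R]
    (θ : R →+* integralClosure ℤ ℂ) (𝔪 : Ideal (integralClosure ℤ ℂ)) [𝔪.IsMaximal] :
    (𝔪.comap θ).IsMaximal := by
  let _ : Algebra R (integralClosure ℤ ℂ) := θ.toAlgebra
  have hI : Algebra.IsIntegral R (integralClosure ℤ ℂ) :=
    ⟨fun x => (Algebra.IsIntegral.isIntegral (R := ℤ) x).tower_top⟩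
  exact Ideal.isMaximal_comap_of_isIntegral_of_isMaximal (R := R) 𝔪

variable {T₀ T : Type*} [CommRing T₀] [CommRing T]
  {V₁ V₂ : Type*} [AddCommGroup V₁] [Module ℂ V₁] [AddCommGroup V₂] [Module ℂ V₂]

/-- **Socle vector at level `N`.** An eigenvector `v` of the Hecke ring `T₀` and of `S` in the
complex span of the lattice `L₁`, with eigencharacter `θ` and `S`-eigenvalue `s ≡ ± c` modulo
the maximal ideal `𝔪 ∋ p`: there is a lattice vector `x`, nonzero modulo `p`, killed modulo `p`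
by `θ⁻¹(𝔪)` and with `S x ≡ ε c x` modulo `p`. -/
theorem exists_socle_vector
    (ρ₁ : T₀ →+* Module.End ℂ V₁) (S : Module.End ℂ V₁) (hS : ∀ t, Commute (ρ₁ t) S)
    (L₁ : Submodule ℤ V₁) (hL₁fg : L₁.FG) (hL₁span : Submodule.span ℂ (L₁ : Set V₁) = ⊤)
    (hL₁ρ : ∀ t, ∀ x ∈ L₁, ρ₁ t x ∈ L₁) (hL₁S : ∀ x ∈ L₁, S x ∈ L₁)
    (c : ℤ) (p : ℕ) (hp0 : p ≠ 0)
    (v : V₁) (hv : v ≠ 0) (θ : T₀ →+* integralClosure ℤ ℂ)
    (hθ : ∀ t, ρ₁ t v = ((θ t : integralClosure ℤ ℂ) : ℂ) • v)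
    (s : integralClosure ℤ ℂ) (hs : S v = (s : ℂ) • v)
    (𝔪 : Ideal (integralClosure ℤ ℂ)) [h𝔪 : 𝔪.IsMaximal]
    (hp𝔪 : (p : integralClosure ℤ ℂ) ∈ 𝔪)
    (hLR : s ^ 2 - (c : integralClosure ℤ ℂ) ^ 2 ∈ 𝔪) :
    ∃ (ε : ℤ) (x : V₁), (ε = 1 ∨ ε = -1) ∧ x ∈ L₁ ∧ (∀ y ∈ L₁, x ≠ (p : ℤ) • y) ∧
      (∀ t : T₀, θ t ∈ 𝔪 → ∃ y ∈ L₁, ρ₁ t x = (p : ℤ) • y) ∧
      ∃ y ∈ L₁, S x - (ε * c) • x = (p : ℤ) • y := by
  classical
  -- the polynomial ring `T₀[X]` acting through `X ↦ S`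
  let ρP : T₀[X] →+* Module.End ℂ V₁ := Polynomial.eval₂RingHom' ρ₁ S hS
  let θP : T₀[X] →+* integralClosure ℤ ℂ := Polynomial.eval₂RingHom θ s
  have hSpow : ∀ n : ℕ, (S ^ n) v = ((s : ℂ) ^ n) • v := by
    intro n
    induction n with
    | zero => simp
    | succ n ih =>
      rw [pow_succ, Module.End.mul_apply, hs, map_smul, ih, smul_smul, pow_succ, mul_comm]
  have hρPv : ∀ r : T₀[X], ρP r v = ((θP r : integralClosure ℤ ℂ) : ℂ) • v := by
    intro r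
    induction r using Polynomial.induction_on' with
    | add a b ha hb =>
      rw [map_add, LinearMap.add_apply, ha, hb, map_add, Subalgebra.coe_add, add_smul]
    | monomial n a =>
      show (Polynomial.eval₂ ρ₁ S (monomial n a)) v =
        ((Polynomial.eval₂ θ s (monomial n a) : integralClosure ℤ ℂ) : ℂ) • v
      rw [Polynomial.eval₂_monomial, Polynomial.eval₂_monomial, Module.End.mul_apply, hSpow,
        map_smul, hθ, smul_smul, Subalgebra.coe_mul, Subalgebra.coe_pow, mul_comm]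
  have hSpowL : ∀ n : ℕ, ∀ x ∈ L₁, (S ^ n) x ∈ L₁ := by
    intro n
    induction n with
    | zero => intro x hx; simpa using hx
    | succ n ih =>
      intro x hx
      rw [pow_succ, Module.End.mul_apply]
      exact ih _ (hL₁S x hx)
  have hρPL : ∀ r : T₀[X], ∀ x ∈ L₁, ρP r x ∈ L₁ := by
    intro r
    induction r using Polynomial.induction_on' with
    | add a b ha hb =>
      intro x hx
      rw [map_add]
      exact L₁.add_mem (ha x hx) (hb x hx)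
    | monomial n a =>
      intro x hx
      show (Polynomial.eval₂ ρ₁ S (monomial n a)) x ∈ L₁
      rw [Polynomial.eval₂_monomial, Module.End.mul_apply]
      exact hL₁ρ a _ (hSpowL n x hx)
  -- the maximal ideal of `T₀[X]`
  let 𝔫P : Ideal T₀[X] := 𝔪.comap θP
  have h𝔫P : 𝔫P.IsMaximal := isMaximal_comap_integralClosure θP 𝔪
  -- the sign
  obtain ⟨ε, hε, hsε⟩ : ∃ ε : ℤ, (ε = 1 ∨ ε = -1) ∧
      s - ((ε * c : ℤ) : integralClosure ℤ ℂ) ∈ 𝔪 := by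
    have hfac : (s - (c : integralClosure ℤ ℂ)) * (s + c) ∈ 𝔪 := by
      have : (s - (c : integralClosure ℤ ℂ)) * (s + c) = s ^ 2 - (c : integralClosure ℤ ℂ) ^ 2 := by
        ring
      rw [this]; exact hLR
    rcases h𝔪.isPrime.mem_or_mem hfac with h | h
    · exact ⟨1, Or.inl rfl, by simpa using h⟩
    · exact ⟨-1, Or.inr rfl, by simpa using h⟩
  -- the `T₀[X]`-module structure on the lattice
  let ρL : T₀[X] →+* Module.End ℤ L₁ := latticeHom ρP L₁ hρPL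
  let modR : Module T₀[X] L₁ := Module.compHom L₁ ρL
  have hsmul : ∀ (r : T₀[X]) (x : L₁), ((r • x : L₁) : V₁) = ρP r (x : V₁) := fun r x => rfl
  let P : Submodule T₀[X] L₁ :=
    { carrier := {x | ∃ y : L₁, x = (p : ℤ) • y}
      zero_mem' := ⟨0, by simp⟩
      add_mem' := by
        rintro a b ⟨ya, rfl⟩ ⟨yb, rfl⟩
        exact ⟨ya + yb, by rw [smul_add]⟩
      smul_mem' := by
        rintro r a ⟨ya, rfl⟩
        refine ⟨r • ya, ?_⟩
        apply Subtype.ext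
        rw [hsmul]
        simp [hsmul] }
  have hP : ∀ x : L₁, x ∈ P ↔ ∃ y : L₁, x = (p : ℤ) • y := fun x => Iff.rfl
  have hfin : Finite (L₁ ⧸ P) := by
    have hfinL : Module.Finite ℤ L₁ := Module.Finite.iff_fg.mpr hL₁fg
    have hfinQ : Module.Finite ℤ (L₁ ⧸ P) :=
      Module.Finite.of_surjective (P.mkQ.toAddMonoidHom.toIntLinearMap)
        (Submodule.mkQ_surjective P)
    apply Module.finite_of_fg_torsion
    intro q
    obtain ⟨x, rfl⟩ := Submodule.Quotient.mk_surjective P q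
    refine ⟨⟨(p : ℤ), mem_nonZeroDivisors_of_ne_zero (Int.natCast_ne_zero.mpr hp0)⟩, ?_⟩
    show (p : ℤ) • (Submodule.Quotient.mk x : L₁ ⧸ P) = 0
    rw [← Submodule.Quotient.mk_smul, Submodule.Quotient.mk_eq_zero]
    exact ⟨x, rfl⟩
  have hpC : (p : ℂ) ≠ 0 := Nat.cast_ne_zero.mpr hp0
  have hne : (𝔫P • ⊤ : Submodule T₀[X] (L₁ ⧸ P)) ≠ ⊤ := by
    intro htop
    have hfgtop : (⊤ : Submodule T₀[X] (L₁ ⧸ P)).FG := IsNoetherian.noetherian _
    obtain ⟨r, hr1, hr0⟩ := Submodule.exists_sub_one_mem_and_smul_eq_zero_of_fg_of_le_smul 𝔫P ⊤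
      hfgtop htop.ge
    have hrP : ∀ x ∈ L₁, ∃ y ∈ L₁, ρP r x = (p : ℤ) • y := by
      intro x hx
      have h0 := hr0 (Submodule.Quotient.mk ⟨x, hx⟩) Submodule.mem_top
      rw [← Submodule.Quotient.mk_smul, Submodule.Quotient.mk_eq_zero] at h0
      obtain ⟨y, hy⟩ := h0
      refine ⟨y, y.2, ?_⟩
      have h1 := congrArg Subtype.val hy
      rw [hsmul] at h1
      rw [h1]; rfl
    let f : Module.End ℂ V₁ := (p : ℂ)⁻¹ • ρP r
    have hfL : ∀ x ∈ L₁, f x ∈ L₁ := by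
      intro x hx
      obtain ⟨y, hy, hxy⟩ := hrP x hx
      have h2 : f x = y := by
        show (p : ℂ)⁻¹ • ρP r x = y
        rw [hxy, ← Int.cast_smul_eq_zsmul ℂ, smul_smul]
        simp [hpC]
      rw [h2]; exact hy
    have hfv : f v = ((p : ℂ)⁻¹ * ((θP r : integralClosure ℤ ℂ) : ℂ)) • v := by
      show (p : ℂ)⁻¹ • ρP r v = _
      rw [hρPv, smul_smul]
    have hint : IsIntegral ℤ ((p : ℂ)⁻¹ * ((θP r : integralClosure ℤ ℂ) : ℂ)) :=
      Fermat.Agent.S49.AlgCore.isIntegral_eigenvalue f L₁ hL₁fg hL₁span hfL hv hfv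
    have hmem : θP r ∈ 𝔪 := by
      have h3 : θP r = (p : integralClosure ℤ ℂ) *
          (⟨(p : ℂ)⁻¹ * ((θP r : integralClosure ℤ ℂ) : ℂ), hint⟩ : integralClosure ℤ ℂ) := by
        apply Subtype.ext
        rw [Subalgebra.coe_mul]
        show ((θP r : integralClosure ℤ ℂ) : ℂ) =
          ((p : integralClosure ℤ ℂ) : ℂ) * ((p : ℂ)⁻¹ * ((θP r : integralClosure ℤ ℂ) : ℂ))
        have hpc : ((p : integralClosure ℤ ℂ) : ℂ) = (p : ℂ) := by simp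
        rw [hpc, ← mul_assoc, mul_inv_cancel₀ hpC, one_mul]
      rw [h3]
      exact 𝔪.mul_mem_right _ hp𝔪
    have h1 : (1 : T₀[X]) ∈ 𝔫P := by
      have h4 : (1 : T₀[X]) = r - (r - 1) := by ring
      rw [h4]
      exact 𝔫P.sub_mem hmem hr1
    exact h𝔫P.ne_top ((Ideal.eq_top_iff_one _).mpr h1)
  obtain ⟨mbar, hm0, hmk⟩ := exists_socle 𝔫P hne
  obtain ⟨x, rfl⟩ := Submodule.Quotient.mk_surjective P mbar
  have hxP : x ∉ P := fun h => hm0 ((Submodule.Quotient.mk_eq_zero P).mpr h)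
  have hkill : ∀ r ∈ 𝔫P, ∃ y ∈ L₁, ρP r (x : V₁) = (p : ℤ) • y := by
    intro r hr
    have h0 := hmk r hr
    rw [← Submodule.Quotient.mk_smul, Submodule.Quotient.mk_eq_zero] at h0
    obtain ⟨y, hy⟩ := h0
    refine ⟨y, y.2, ?_⟩
    have h1 := congrArg Subtype.val hy
    rw [hsmul] at h1
    rw [h1]; rfl
  refine ⟨ε, (x : V₁), hε, x.2, ?_, ?_, ?_⟩
  · intro y hy hxy
    exact hxP ⟨⟨y, hy⟩, Subtype.ext hxy⟩
  · intro t ht
    have hC : (C t : T₀[X]) ∈ 𝔫P := by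
      show Polynomial.eval₂ θ s (C t) ∈ 𝔪
      rw [Polynomial.eval₂_C]; exact ht
    obtain ⟨y, hy, h⟩ := hkill _ hC
    refine ⟨y, hy, ?_⟩
    rw [← h]
    show ρ₁ t (x : V₁) = (Polynomial.eval₂ ρ₁ S (C t)) (x : V₁)
    rw [Polynomial.eval₂_C]
  · have hX : (X - C ((ε * c : ℤ) : T₀) : T₀[X]) ∈ 𝔫P := by
      show Polynomial.eval₂ θ s (X - C ((ε * c : ℤ) : T₀)) ∈ 𝔪
      rw [Polynomial.eval₂_sub, Polynomial.eval₂_X, Polynomial.eval₂_C, map_intCast]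
      exact hsε
    obtain ⟨y, hy, h⟩ := hkill _ hX
    refine ⟨y, hy, ?_⟩
    rw [← h]
    show S (x : V₁) - (ε * c) • (x : V₁) =
      (Polynomial.eval₂RingHom' ρ₁ S hS (X - C ((ε * c : ℤ) : T₀))) (x : V₁)
    rw [map_sub, LinearMap.sub_apply]
    show _ = (Polynomial.eval₂ ρ₁ S X) (x : V₁) - (Polynomial.eval₂ ρ₁ S (C ((ε * c : ℤ) : T₀))) (x : V₁)
    rw [Polynomial.eval₂_X, Polynomial.eval₂_C, map_intCast, Module.End.intCast_apply]

/-- **Ribet's level raising, abstract form.**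

`V₁ ⊇ L₁`, `V₂ ⊇ L₂` : the complex cohomology of levels `N`, `Nq'` with their integral
lattices; `T₀` the Hecke ring away from `q'` acting on both (through `j : T₀ → T` on `V₂`),
`T` the full Hecke ring of level `Nq'`; `S = T_{q'}` at level `N`; `α₁ α₂` the degeneracy maps
and `β₁ β₂` their adjoints with `β ∘ α = [[c, S], [S, c]]`; `u = U_{q'}` squares to `1` on
`ker β₁ ∩ ker β₂`.  Let `v` be an eigenvector of level `N` with eigencharacter `θ` and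
`S`-eigenvalue `s`, `s² ≡ c²` modulo the maximal ideal `𝔪 ∋ p`.  If Ihara's lemma and its dual
hold modulo `p` up to operators `e₁ e₂` with `θ eᵢ ∉ 𝔪`, then there is an eigenvector `w` of the
full Hecke ring `T` of level `Nq'`, with eigencharacter `θ'` congruent to `θ` on `T₀` modulo a
maximal ideal `𝔪' ∋ p`, and `θ' u ^ 2 = 1` exactly. -/
theorem exists_new_eigenvector
    (j : T₀ →+* T)
    (ρ₁ : T₀ →+* Module.End ℂ V₁) (ρ₂ : T →+* Module.End ℂ V₂)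
    (S : Module.End ℂ V₁) (hS : ∀ t, Commute (ρ₁ t) S)
    (L₁ : Submodule ℤ V₁) (hL₁fg : L₁.FG) (hL₁span : Submodule.span ℂ (L₁ : Set V₁) = ⊤)
    (hL₁ρ : ∀ t, ∀ x ∈ L₁, ρ₁ t x ∈ L₁) (hL₁S : ∀ x ∈ L₁, S x ∈ L₁)
    (L₂ : Submodule ℤ V₂) (hL₂fg : L₂.FG) (hL₂ρ : ∀ t, ∀ z ∈ L₂, ρ₂ t z ∈ L₂)
    (α₁ α₂ : V₁ →ₗ[ℂ] V₂) (β₁ β₂ : V₂ →ₗ[ℂ] V₁)
    (hα₁L : ∀ x ∈ L₁, α₁ x ∈ L₂) (hα₂L : ∀ x ∈ L₁, α₂ x ∈ L₂)
    (hβ₁L : ∀ z ∈ L₂, β₁ z ∈ L₁) (hβ₂L : ∀ z ∈ L₂, β₂ z ∈ L₁)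
    (hα₁ρ : ∀ t, ∀ x ∈ L₁, α₁ (ρ₁ t x) = ρ₂ (j t) (α₁ x))
    (hα₂ρ : ∀ t, ∀ x ∈ L₁, α₂ (ρ₁ t x) = ρ₂ (j t) (α₂ x))
    (hβ₁ρ : ∀ t, ∀ z ∈ L₂, β₁ (ρ₂ (j t) z) = ρ₁ t (β₁ z))
    (hβ₂ρ : ∀ t, ∀ z ∈ L₂, β₂ (ρ₂ (j t) z) = ρ₁ t (β₂ z))
    (c : ℤ) (h11 : ∀ x ∈ L₁, β₁ (α₁ x) = c • x) (h22 : ∀ x ∈ L₁, β₂ (α₂ x) = c • x)
    (h12 : ∀ x ∈ L₁, β₁ (α₂ x) = S x) (h21 : ∀ x ∈ L₁, β₂ (α₁ x) = S x)
    (u : T) (hu : ∀ z ∈ L₂, β₁ z = 0 → β₂ z = 0 → ρ₂ u (ρ₂ u z) = z)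
    (p : ℕ) (hp0 : p ≠ 0)
    (v : V₁) (hv : v ≠ 0) (θ : T₀ →+* integralClosure ℤ ℂ)
    (hθ : ∀ t, ρ₁ t v = ((θ t : integralClosure ℤ ℂ) : ℂ) • v)
    (s : integralClosure ℤ ℂ) (hs : S v = (s : ℂ) • v)
    (𝔪 : Ideal (integralClosure ℤ ℂ)) [h𝔪 : 𝔪.IsMaximal]
    (hp𝔪 : (p : integralClosure ℤ ℂ) ∈ 𝔪)
    (hLR : s ^ 2 - (c : integralClosure ℤ ℂ) ^ 2 ∈ 𝔪)
    (e₁ e₂ : T₀) (he₁ : θ e₁ ∉ 𝔪) (he₂ : θ e₂ ∉ 𝔪)
    (ihara : ∀ x ∈ L₁, ∀ y ∈ L₁, (∃ z ∈ L₂, α₁ x + α₂ y = (p : ℤ) • z) →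
      (∃ x' ∈ L₁, ρ₁ e₁ x = (p : ℤ) • x') ∧ ∃ y' ∈ L₁, ρ₁ e₁ y = (p : ℤ) • y')
    (dual : ∀ x ∈ L₁, ∀ y ∈ L₁, ∃ z ∈ L₂, ∃ x' ∈ L₁, ∃ y' ∈ L₁,
      ρ₁ e₂ x = β₁ z + (p : ℤ) • x' ∧ ρ₁ e₂ y = β₂ z + (p : ℤ) • y') :
    ∃ (w : V₂) (θ' : T →+* integralClosure ℤ ℂ) (𝔪' : Ideal (integralClosure ℤ ℂ)),
      w ≠ 0 ∧ (∀ t : T, ρ₂ t w = ((θ' t : integralClosure ℤ ℂ) : ℂ) • w) ∧
      𝔪'.IsMaximal ∧ (p : integralClosure ℤ ℂ) ∈ 𝔪' ∧
      (∀ t : T₀, θ t ∈ 𝔪 → θ' (j t) ∈ 𝔪') ∧ θ' u ^ 2 = 1 := by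
  classical
  obtain ⟨ε, x, hε, hxL, hxp, hx𝔫, y₀, hy₀L, hy₀⟩ := exists_socle_vector ρ₁ S hS L₁ hL₁fg hL₁span
    hL₁ρ hL₁S c p hp0 v hv θ hθ s hs 𝔪 hp𝔪 hLR
  -- `T₀`-module structures on the two lattices
  let r₁ : T₀ →+* Module.End ℤ L₁ := latticeHom ρ₁ L₁ hL₁ρ
  let r₂ : T₀ →+* Module.End ℤ L₂ := latticeHom (ρ₂.comp j) L₂ (fun t => hL₂ρ (j t))
  let mod₁ : Module T₀ L₁ := Module.compHom L₁ r₁
  let mod₂ : Module T₀ L₂ := Module.compHom L₂ r₂
  have hsm₁ : ∀ (t : T₀) (a : L₁), ((t • a : L₁) : V₁) = ρ₁ t (a : V₁) := fun _ _ => rfl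
  have hsm₂ : ∀ (t : T₀) (a : L₂), ((t • a : L₂) : V₂) = ρ₂ (j t) (a : V₂) := fun _ _ => rfl
  let a₁ : L₁ →ₗ[T₀] L₂ :=
    { toFun := fun a => ⟨α₁ a, hα₁L a a.2⟩
      map_add' := fun a b => Subtype.ext (map_add α₁ (a : V₁) b)
      map_smul' := fun t a => Subtype.ext (hα₁ρ t a a.2) }
  let a₂ : L₁ →ₗ[T₀] L₂ :=
    { toFun := fun a => ⟨α₂ a, hα₂L a a.2⟩
      map_add' := fun a b => Subtype.ext (map_add α₂ (a : V₁) b)
      map_smul' := fun t a => Subtype.ext (hα₂ρ t a a.2) }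
  let b₁ : L₂ →ₗ[T₀] L₁ :=
    { toFun := fun a => ⟨β₁ a, hβ₁L a a.2⟩
      map_add' := fun a b => Subtype.ext (map_add β₁ (a : V₂) b)
      map_smul' := fun t a => Subtype.ext (hβ₁ρ t a a.2) }
  let b₂ : L₂ →ₗ[T₀] L₁ :=
    { toFun := fun a => ⟨β₂ a, hβ₂L a a.2⟩
      map_add' := fun a b => Subtype.ext (map_add β₂ (a : V₂) b)
      map_smul' := fun t a => Subtype.ext (hβ₂ρ t a a.2) }
  let SL : L₁ →ₗ[T₀] L₁ :=
    { toFun := fun a => ⟨S a, hL₁S a a.2⟩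
      map_add' := fun a b => Subtype.ext (map_add S (a : V₁) b)
      map_smul' := fun t a => Subtype.ext (by
        show S (ρ₁ t (a : V₁)) = ρ₁ t (S (a : V₁))
        have := (hS t).eq
        exact (LinearMap.congr_fun this (a : V₁)).symm) }
  have hfinL : Module.Finite ℤ L₁ := Module.Finite.iff_fg.mpr hL₁fg
  let 𝔫 : Ideal T₀ := 𝔪.comap θ
  have h𝔫 : 𝔫.IsMaximal := isMaximal_comap_integralClosure θ 𝔪
  obtain ⟨z, hz1, hz2, hzp, hz𝔫⟩ := exists_new_vector a₁ a₂ b₁ b₂ SL c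
    (fun a => Subtype.ext (h11 a a.2)) (fun a => Subtype.ext (h22 a a.2))
    (fun a => Subtype.ext (h12 a a.2)) (fun a => Subtype.ext (h21 a a.2))
    p 𝔫 e₁ e₂ he₁ he₂
    (by
      rintro a b ⟨d, hd⟩
      obtain ⟨⟨x', hx'L, hx'⟩, ⟨y', hy'L, hy'⟩⟩ := ihara a a.2 b b.2
        ⟨d, d.2, congrArg Subtype.val hd⟩
      exact ⟨⟨⟨x', hx'L⟩, Subtype.ext hx'⟩, ⟨⟨y', hy'L⟩, Subtype.ext hy'⟩⟩)
    (by
      intro a b
      obtain ⟨d, hdL, x', hx'L, y', hy'L, h1, h2⟩ := dual a a.2 b b.2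
      exact ⟨⟨d, hdL⟩, ⟨x', hx'L⟩, ⟨y', hy'L⟩, Subtype.ext h1, Subtype.ext h2⟩)
    ε hε ⟨x, hxL⟩
    (by
      rintro ⟨x', hx'⟩
      exact hxp x' x'.2 (congrArg Subtype.val hx'))
    (by
      intro n hn
      obtain ⟨y, hyL, hy⟩ := hx𝔫 n hn
      exact ⟨⟨y, hyL⟩, Subtype.ext hy⟩)
    ⟨⟨y₀, hy₀L⟩, Subtype.ext hy₀⟩
  have hβ₁z : β₁ (z : V₂) = 0 := congrArg Subtype.val hz1
  have hβ₂z : β₂ (z : V₂) = 0 := congrArg Subtype.val hz2
  have hzp' : ∀ d ∈ L₂, (z : V₂) ≠ (p : ℤ) • d := by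
    intro d hd h
    exact hzp ⟨⟨d, hd⟩, Subtype.ext h⟩
  have hcomm : ∀ (a b : T) (y : V₂), ρ₂ a (ρ₂ b y) = ρ₂ b (ρ₂ a y) := by
    intro a b y
    rw [← Module.End.mul_apply, ← Module.End.mul_apply, ← map_mul, ← map_mul, mul_comm]
  -- the ideal of operators killing `z` modulo `p`
  let J : Ideal T :=
    { carrier := {t | ∃ d ∈ L₂, ρ₂ t (z : V₂) = (p : ℤ) • d}
      zero_mem' := ⟨0, L₂.zero_mem, by simp⟩
      add_mem' := by
        rintro a b ⟨da, hda, ha⟩ ⟨db, hdb, hb⟩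
        exact ⟨da + db, L₂.add_mem hda hdb, by
          rw [map_add, LinearMap.add_apply, ha, hb, smul_add]⟩
      smul_mem' := by
        rintro r a ⟨da, hda, ha⟩
        exact ⟨ρ₂ r da, hL₂ρ r da hda, by
          rw [smul_eq_mul, map_mul, Module.End.mul_apply, ha, map_zsmul]⟩ }
  have hJ1 : J ≠ ⊤ := by
    rw [Ne, Ideal.eq_top_iff_one]
    rintro ⟨d, hd, h⟩
    rw [map_one] at h
    exact hzp' d hd h
  obtain ⟨𝔑, h𝔑max, hJ𝔑⟩ := Ideal.exists_le_maximal J hJ1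
  -- the lattice of `u² = 1`
  let Lu : Submodule ℤ V₂ :=
    { carrier := {y | y ∈ L₂ ∧ ρ₂ u (ρ₂ u y) = y}
      zero_mem' := ⟨L₂.zero_mem, by simp⟩
      add_mem' := by
        rintro a b ⟨ha, ha'⟩ ⟨hb, hb'⟩
        exact ⟨L₂.add_mem ha hb, by rw [map_add, map_add, ha', hb']⟩
      smul_mem' := by
        rintro k a ⟨ha, ha'⟩
        exact ⟨L₂.smul_mem k ha, by rw [map_zsmul, map_zsmul, ha']⟩ }
  have hLufg : Lu.FG := Submodule.FG.of_le hL₂fg (fun y hy => hy.1)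
  have hLuT : ∀ t : T, ∀ y ∈ Lu, ρ₂ t y ∈ Lu := by
    rintro t y ⟨hy, hy'⟩
    exact ⟨hL₂ρ t y hy, by rw [hcomm u t, hcomm u t, hy']⟩
  have hzLu : (z : V₂) ∈ Lu := ⟨z.2, hu z z.2 hβ₁z hβ₂z⟩
  obtain ⟨w, θ', 𝔪', hw0, hwspan, hw, h𝔪', hcomap⟩ :=
    exists_eigenvector_of_lattice ρ₂ Lu hLufg hLuT 𝔑 (by
      intro t ht
      exact hJ𝔑 ⟨0, L₂.zero_mem, by rw [ht _ hzLu, smul_zero]⟩)
  have hJ' : ∀ t ∈ J, θ' t ∈ 𝔪' := by
    intro t ht
    have : t ∈ 𝔪'.comap θ' := by rw [hcomap]; exact hJ𝔑 ht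
    exact this
  refine ⟨w, θ', 𝔪', hw0, hw, h𝔪', ?_, ?_, ?_⟩
  · have hpJ : (p : T) ∈ J := ⟨z, z.2, by
      rw [map_natCast]
      simp⟩
    have := hJ' _ hpJ
    rwa [map_natCast] at this
  · intro t ht
    obtain ⟨d, hd⟩ := hz𝔫 t ht
    exact hJ' _ ⟨d, d.2, by
      have := congrArg Subtype.val hd
      rw [hsm₂] at this
      rw [this]; rfl⟩
  · have hspan : ∀ y ∈ Submodule.span ℂ (Lu : Set V₂), ρ₂ u (ρ₂ u y) = y := by
      intro y hy
      induction hy using Submodule.span_induction with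
      | mem y hy => exact hy.2
      | zero => simp
      | add a b _ _ ha hb => rw [map_add, map_add, ha, hb]
      | smul k a _ ha => rw [map_smul, map_smul, ha]
    have huw : ρ₂ u (ρ₂ u w) = w := hspan w hwspan
    rw [hw u, map_smul, hw u, smul_smul] at huw
    have h1 : ((θ' u : integralClosure ℤ ℂ) : ℂ) * ((θ' u : integralClosure ℤ ℂ) : ℂ) = 1 := by
      have h2 : (((θ' u : integralClosure ℤ ℂ) : ℂ) * ((θ' u : integralClosure ℤ ℂ) : ℂ) - 1) • w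
          = 0 := by
        rw [sub_smul, huw, one_smul, sub_self]
      rcases smul_eq_zero.mp h2 with h | h
      · exact sub_eq_zero.mp h
      · exact absurd h hw0
    apply Subtype.ext
    rw [Subalgebra.coe_pow, pow_two, h1]; rfl

end main

end Fermat.Agent.S41.Core
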