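import Mathlib

set_option autoImplicit false

/-!
# Dual Ihara from Ihara and Poincaré duality (S41), and reduction adapters

* `dual_ihara_of_pairing` : pure linear algebra over a field.  If the kernel of
  `α = α₁ + α₂ : M₁ × M₁ → M₂` is killed by `e`, the pairings are left-nondegenerate, `βᵢ` is
  adjoint to `αᵢ` and `e` is self-adjoint, then the cokernel of `β = (β₁, β₂) : M₂ → M₁ × M₁` is
  killed by `e`.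
* `ihara_of_reduction`, `dual_of_reduction` : from statements on the reductions `Mᵢ` of the
  lattices `Lᵢ` modulo `p` to the lattice statements used by `Core.exists_new_eigenvector`.
-/

namespace Fermat.Agent.S41.DualIhara

section field

variable {k : Type*} [Field k] {M₁ M₂ : Type*} [AddCommGroup M₁] [Module k M₁]
  [FiniteDimensional k M₁] [AddCommGroup M₂] [Module k M₂]

/-- **Dual Ihara from Ihara + duality.** -/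
theorem dual_ihara_of_pairing
    (α₁ α₂ : M₁ →ₗ[k] M₂) (β₁ β₂ : M₂ →ₗ[k] M₁) (e : M₁ →ₗ[k] M₁)
    (B₁ : M₁ →ₗ[k] M₁ →ₗ[k] k) (B₂ : M₂ →ₗ[k] M₂ →ₗ[k] k)
    (hB₁ : ∀ a, (∀ x, B₁ a x = 0) → a = 0) (hB₂ : ∀ w, (∀ z, B₂ w z = 0) → w = 0)
    (hadj₁ : ∀ a z, B₂ (α₁ a) z = B₁ a (β₁ z)) (hadj₂ : ∀ a z, B₂ (α₂ a) z = B₁ a (β₂ z))
    (he : ∀ a x, B₁ (e a) x = B₁ a (e x))
    (ihara : ∀ a b, α₁ a + α₂ b = 0 → e a = 0 ∧ e b = 0) :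
    ∀ x y, ∃ z, e x = β₁ z ∧ e y = β₂ z := by
  classical
  intro x y
  by_contra hcon
  -- `B₁` is onto the dual
  have hinj : Function.Injective B₁ := by
    rw [← LinearMap.ker_eq_bot, LinearMap.ker_eq_bot']
    intro a ha
    exact hB₁ a (fun x => by rw [ha]; rfl)
  have hsurj : Function.Surjective B₁ :=
    (LinearMap.injective_iff_surjective_of_finrank_eq_finrank
      (Subspace.dual_finrank_eq (K := k) (V := M₁)).symm).mp hinj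
  let C : Submodule k (M₁ × M₁) := LinearMap.range (β₁.prod β₂)
  have hg : ((e x, e y) : M₁ × M₁) ∉ C := by
    rintro ⟨z, hz⟩
    apply hcon
    refine ⟨z, ?_, ?_⟩
    · exact (congrArg Prod.fst hz).symm
    · exact (congrArg Prod.snd hz).symm
  obtain ⟨φ, hφg, hφC⟩ := Submodule.exists_le_ker_of_notMem hg
  obtain ⟨a₁, ha₁⟩ := hsurj (φ.comp (LinearMap.inl k M₁ M₁))
  obtain ⟨a₂, ha₂⟩ := hsurj (φ.comp (LinearMap.inr k M₁ M₁))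
  have hφ : ∀ m n : M₁, φ (m, n) = B₁ a₁ m + B₁ a₂ n := by
    intro m n
    have h1 : ((m, n) : M₁ × M₁) = LinearMap.inl k M₁ M₁ m + LinearMap.inr k M₁ M₁ n := by
      simp
    rw [h1, map_add, ha₁, ha₂]
    rfl
  have hker : α₁ a₁ + α₂ a₂ = 0 := by
    apply hB₂
    intro z
    rw [map_add, LinearMap.add_apply, hadj₁, hadj₂, ← hφ]
    exact LinearMap.mem_ker.mp (hφC ⟨z, rfl⟩)
  obtain ⟨h1, h2⟩ := ihara a₁ a₂ hker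
  apply hφg
  rw [hφ, ← he, ← he, h1, h2]
  simp

end field

section reduction

variable {V₁ V₂ : Type*} [AddCommGroup V₁] [AddCommGroup V₂]
  {M₁ M₂ : Type*} [AddCommGroup M₁] [AddCommGroup M₂]

/-- Lattice form of Ihara's lemma (the hypothesis `ihara` of `Core.exists_new_eigenvector`)
from its form on the reductions `M₁`, `M₂` of the lattices modulo `p`.  The operators are
arbitrary functions; only the reduction maps `π₁`, `π₂` have to be additive. -/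
theorem ihara_of_reduction (L₁ : Submodule ℤ V₁) (L₂ : Submodule ℤ V₂) (p : ℕ)
    (α₁ α₂ : V₁ → V₂) (E : V₁ → V₁) (hEL : ∀ x ∈ L₁, E x ∈ L₁)
    (π₁ : L₁ →+ M₁) (π₂ : L₂ →+ M₂)
    (hπ₁ : ∀ x : L₁, π₁ x = 0 → ∃ y ∈ L₁, (x : V₁) = (p : ℤ) • y)
    (hπ₂ : ∀ z : L₂, π₂ ((p : ℤ) • z) = 0)
    (αb₁ αb₂ : M₁ → M₂) (Eb : M₁ → M₁)
    (hα₁L : ∀ x ∈ L₁, α₁ x ∈ L₂) (hα₂L : ∀ x ∈ L₁, α₂ x ∈ L₂)
    (hα₁ : ∀ (x : L₁) (h : α₁ x ∈ L₂), π₂ ⟨α₁ x, h⟩ = αb₁ (π₁ x))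
    (hα₂ : ∀ (x : L₁) (h : α₂ x ∈ L₂), π₂ ⟨α₂ x, h⟩ = αb₂ (π₁ x))
    (hE : ∀ (x : L₁) (h : E x ∈ L₁), π₁ ⟨E x, h⟩ = Eb (π₁ x))
    (ihara : ∀ a b : M₁, αb₁ a + αb₂ b = 0 → Eb a = 0 ∧ Eb b = 0) :
    ∀ x ∈ L₁, ∀ y ∈ L₁, (∃ z ∈ L₂, α₁ x + α₂ y = (p : ℤ) • z) →
      (∃ x' ∈ L₁, E x = (p : ℤ) • x') ∧ ∃ y' ∈ L₁, E y = (p : ℤ) • y' := by
  intro x hx y hy ⟨z, hz, hxy⟩
  have h0 : αb₁ (π₁ ⟨x, hx⟩) + αb₂ (π₁ ⟨y, hy⟩) = 0 := by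
    rw [← hα₁ ⟨x, hx⟩ (hα₁L x hx), ← hα₂ ⟨y, hy⟩ (hα₂L y hy), ← map_add]
    have h1 : (⟨α₁ x, hα₁L x hx⟩ + ⟨α₂ y, hα₂L y hy⟩ : L₂) = (p : ℤ) • (⟨z, hz⟩ : L₂) :=
      Subtype.ext hxy
    rw [h1]
    exact hπ₂ _
  obtain ⟨h1, h2⟩ := ihara _ _ h0
  refine ⟨?_, ?_⟩
  · rw [← hE ⟨x, hx⟩ (hEL x hx)] at h1
    exact hπ₁ _ h1
  · rw [← hE ⟨y, hy⟩ (hEL y hy)] at h2
    exact hπ₁ _ h2

/-- Lattice form of dual Ihara (the hypothesis `dual` of `Core.exists_new_eigenvector`) from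
its form on the reductions modulo `p`. -/
theorem dual_of_reduction (L₁ : Submodule ℤ V₁) (L₂ : Submodule ℤ V₂) (p : ℕ)
    (β₁ β₂ : V₂ → V₁) (E : V₁ → V₁) (hEL : ∀ x ∈ L₁, E x ∈ L₁)
    (π₁ : L₁ →+ M₁) (π₂ : L₂ →+ M₂)
    (hπ₁ : ∀ x : L₁, π₁ x = 0 → ∃ y ∈ L₁, (x : V₁) = (p : ℤ) • y)
    (hπ₂ : Function.Surjective π₂)
    (βb₁ βb₂ : M₂ → M₁) (Eb : M₁ → M₁)
    (hβ₁L : ∀ z ∈ L₂, β₁ z ∈ L₁) (hβ₂L : ∀ z ∈ L₂, β₂ z ∈ L₁)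
    (hβ₁ : ∀ (z : L₂) (h : β₁ z ∈ L₁), π₁ ⟨β₁ z, h⟩ = βb₁ (π₂ z))
    (hβ₂ : ∀ (z : L₂) (h : β₂ z ∈ L₁), π₁ ⟨β₂ z, h⟩ = βb₂ (π₂ z))
    (hE : ∀ (x : L₁) (h : E x ∈ L₁), π₁ ⟨E x, h⟩ = Eb (π₁ x))
    (dual : ∀ a b : M₁, ∃ z : M₂, Eb a = βb₁ z ∧ Eb b = βb₂ z) :
    ∀ x ∈ L₁, ∀ y ∈ L₁, ∃ z ∈ L₂, ∃ x' ∈ L₁, ∃ y' ∈ L₁,
      E x = β₁ z + (p : ℤ) • x' ∧ E y = β₂ z + (p : ℤ) • y' := by
  intro x hx y hy
  obtain ⟨zb, h1, h2⟩ := dual (π₁ ⟨x, hx⟩) (π₁ ⟨y, hy⟩)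
  obtain ⟨z, rfl⟩ := hπ₂ zb
  have hx0 : π₁ (⟨E x, hEL x hx⟩ - ⟨β₁ z, hβ₁L z z.2⟩) = 0 := by
    rw [map_sub, hE ⟨x, hx⟩, hβ₁ z, h1, sub_self]
  have hy0 : π₁ (⟨E y, hEL y hy⟩ - ⟨β₂ z, hβ₂L z z.2⟩) = 0 := by
    rw [map_sub, hE ⟨y, hy⟩, hβ₂ z, h2, sub_self]
  obtain ⟨x', hx'L, hx'⟩ := hπ₁ _ hx0
  obtain ⟨y', hy'L, hy'⟩ := hπ₁ _ hy0
  refine ⟨z, z.2, x', hx'L, y', hy'L, ?_, ?_⟩
  · rw [← hx']
    show E x = β₁ z + (E x - β₁ z)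
    abel
  · rw [← hy']
    show E y = β₂ z + (E y - β₂ z)
    abel

end reduction

end Fermat.Agent.S41.DualIhara
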