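import Mathlib
import Fermat.Agent.S41.Coh.EigenformU
import Fermat.Agent.ESJ.ParHom.Cmp
import Fermat.Prelude.Def_CuspForm_HeckeEvalForms
import Fermat.Prelude.Def_FreyPackage_LevelRaising

/-!
# S41 / WP-F : from the new Hecke eigenvector to the frozen conclusion

* `exists_eigenform_of_eigenvector` : a nonzero vector `w ∈ Hom_PE(Γ₀(M), ℂ)` which is an
  eigenvector of the Prelude's Hecke algebra acting through the Eichler–Shimura isomorphism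
  `periodEquiv M : S₂ × S₂ ≃ Hom_PE` gives a normalised eigenform with the same eigenvalues
  (`T_ℓ` for `ℓ ∤ M`, `U_ℓ` for `ℓ ∣ M`).
* `frozen_of_eigenvector` : the conclusion of the frozen statement S41 from the output of the
  instantiated Core theorem (`w`, `θ'`, `𝔪'`, congruence clause, `θ'(U_q')² = 1`).
-/

set_option autoImplicit false

open CongruenceSubgroup ModularFormClass

namespace Fermat.Agent.S41.Final

open Fermat.Agent.ESJ.ParHom Fermat.Agent.S41.Coh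

/-- A nonzero Hecke eigenvector in `Hom_PE(Γ₀(M), ℂ)` gives a normalised eigenform. -/
theorem exists_eigenform_of_eigenvector {M : ℕ} [NeZero M] (w : peHoms (Gamma0 M) ℂ ℂ)
    (hw : w ≠ 0) (θ : CuspForm.heckeAlgebra M 2 ∅ →+* ℂ)
    (h : ∀ t : CuspForm.heckeAlgebra M 2 ∅,
      periodEquiv M
        ((t : Module.End ℂ (CuspForm (Gamma0 M) 2)) ((periodEquiv M).symm w).1,
         (t : Module.End ℂ (CuspForm (Gamma0 M) 2)) ((periodEquiv M).symm w).2) = θ t • w) :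
    ∃ g : CuspForm (Gamma0 M) 2, g.IsNormalizedEigenform ∧
      (∀ (ℓ : ℕ) (hℓ : ℓ.Prime) (hℓM : ¬ ℓ ∣ M),
        qCoeff (⇑g) ℓ = θ (CuspForm.heckeAlgebra.T hℓ hℓM (Set.notMem_empty ℓ))) ∧
      ∀ (ℓ : ℕ) (hℓ : ℓ.Prime) (hℓM : ℓ ∣ M),
        qCoeff (⇑g) ℓ = θ (CuspForm.heckeAlgebra.U hℓ hℓM (Set.notMem_empty ℓ)) := by
  set x := (periodEquiv M).symm w with hx
  have hxw : periodEquiv M x = w := LinearEquiv.apply_symm_apply _ _
  have hx0 : x ≠ 0 := by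
    intro h0
    apply hw
    rw [← hxw, h0, map_zero]
  have key : ∀ t : CuspForm.heckeAlgebra M 2 ∅,
      ((t : Module.End ℂ (CuspForm (Gamma0 M) 2)) x.1,
        (t : Module.End ℂ (CuspForm (Gamma0 M) 2)) x.2) = θ t • x := by
    intro t
    apply (periodEquiv M).injective
    rw [h t, map_smul, hxw]
  have key1 : ∀ t : CuspForm.heckeAlgebra M 2 ∅,
      (t : Module.End ℂ (CuspForm (Gamma0 M) 2)) x.1 = θ t • x.1 := fun t =>
    congrArg Prod.fst (key t)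
  have key2 : ∀ t : CuspForm.heckeAlgebra M 2 ∅,
      (t : Module.End ℂ (CuspForm (Gamma0 M) 2)) x.2 = θ t • x.2 := fun t =>
    congrArg Prod.snd (key t)
  by_cases h1 : x.1 = 0
  · have h2 : x.2 ≠ 0 := by
      intro h2
      exact hx0 (Prod.ext h1 h2)
    exact exists_normalized_eigenform_full h2 key2
  · exact exists_normalized_eigenform_full h1 key1

/-- **The frozen conclusion of S41 from the new eigenvector.** -/
theorem frozen_of_eigenvector {W : WeierstrassCurve ℤ} {p N q' : ℕ} [NeZero (N * q')]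
    (hq' : q'.Prime) (f : CuspForm (Gamma0 N) 2) (𝔪 : Ideal (integralClosure ℤ ℂ))
    (hcong : ∀ ℓ : ℕ, ℓ.Prime → W.IsGoodPrimeFor ℓ → ¬ ℓ ∣ N → ℓ ≠ p →
      ∃ a : integralClosure ℤ ℂ, (a : ℂ) = ModularFormClass.qCoeff f ℓ ∧
        a - ((W.apOfModel ℓ : ℤ) : integralClosure ℤ ℂ) ∈ 𝔪)
    (w : peHoms (Gamma0 (N * q')) ℂ ℂ)
    (θ' : CuspForm.heckeAlgebra (N * q') 2 ∅ →+* integralClosure ℤ ℂ)
    (𝔪' : Ideal (integralClosure ℤ ℂ)) (hw : w ≠ 0)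
    (heig : ∀ t : CuspForm.heckeAlgebra (N * q') 2 ∅,
      periodEquiv (N * q')
        ((t : Module.End ℂ (CuspForm (Gamma0 (N * q')) 2)) ((periodEquiv (N * q')).symm w).1,
         (t : Module.End ℂ (CuspForm (Gamma0 (N * q')) 2)) ((periodEquiv (N * q')).symm w).2)
        = ((θ' t : integralClosure ℤ ℂ) : ℂ) • w)
    (hmax' : 𝔪'.IsMaximal) (hp' : (p : integralClosure ℤ ℂ) ∈ 𝔪')
    (hc : ∀ ℓ : Nat.Primes, ¬ (ℓ : ℕ) ∣ N * q' → ∀ a b : integralClosure ℤ ℂ,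
      (a : ℂ) = ModularFormClass.qCoeff f ℓ → a - b ∈ 𝔪 →
      θ' (CuspForm.heckeFormsGen (N * q') 2 ℓ) - b ∈ 𝔪')
    (hu : θ' (CuspForm.heckeFormsGen (N * q') 2 ⟨q', hq'⟩) ^ 2 = 1) :
    ∃ (g : CuspForm (CongruenceSubgroup.Gamma0 (N * q')) 2) (𝔪' : Ideal (integralClosure ℤ ℂ)),
      g.IsNormalizedEigenform ∧ 𝔪'.IsMaximal ∧ (p : integralClosure ℤ ℂ) ∈ 𝔪' ∧
      (∀ ℓ : ℕ, ℓ.Prime → W.IsGoodPrimeFor ℓ → ¬ ℓ ∣ N * q' → ℓ ≠ p →
        ∃ a : integralClosure ℤ ℂ, (a : ℂ) = ModularFormClass.qCoeff g ℓ ∧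
          a - ((W.apOfModel ℓ : ℤ) : integralClosure ℤ ℂ) ∈ 𝔪') ∧
      g.IsNewAt q' := by
  set θc : CuspForm.heckeAlgebra (N * q') 2 ∅ →+* ℂ :=
    ((integralClosure ℤ ℂ).val : integralClosure ℤ ℂ →+* ℂ).comp θ' with hθc
  have hθc_apply : ∀ t, θc t = ((θ' t : integralClosure ℤ ℂ) : ℂ) := fun _ => rfl
  obtain ⟨g, hg, hT, hU⟩ := exists_eigenform_of_eigenvector w hw θc heig
  refine ⟨g, 𝔪', hg, hmax', hp', ?_, ?_⟩
  · intro ℓ hℓ hgood hℓM hℓp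
    obtain ⟨a₀, ha₀, ha₀m⟩ := hcong ℓ hℓ hgood (fun h => hℓM (h.mul_right q')) hℓp
    refine ⟨θ' (CuspForm.heckeFormsGen (N * q') 2 ⟨ℓ, hℓ⟩), ?_, hc ⟨ℓ, hℓ⟩ hℓM a₀ _ ha₀ ha₀m⟩
    rw [hT ℓ hℓ hℓM, hθc_apply, CuspForm.heckeFormsGen_of_not_dvd (ℓ := ⟨ℓ, hℓ⟩) hℓM]
  · show ModularFormClass.qCoeff g q' ^ 2 = 1
    have hd : q' ∣ N * q' := Dvd.intro_left N rfl
    rw [hU q' hq' hd, hθc_apply]
    have e : CuspForm.heckeFormsGen (N * q') 2 (⟨q', hq'⟩ : Nat.Primes)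
        = CuspForm.heckeAlgebra.U hq' hd (Set.notMem_empty _) :=
      CuspForm.heckeFormsGen_of_dvd (q := ⟨q', hq'⟩) hd
    rw [e] at hu
    have h2 := congrArg (fun z : integralClosure ℤ ℂ => (z : ℂ)) hu
    simpa using h2

end Fermat.Agent.S41.Final
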